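/-
Row S59, block M-FREE, next layer (helper587): coset systems whose cocycle preserves a character.

Pure group theory on top of the coset systems of row S41 (`S41/H761/CosetSystem.lean`).
`h : IsCosetSystem ι ι ρ` a coset system from `G` to `G` (a Hecke correspondence), `κ : G →* D`
with `κ (h.coc i g) = κ g` (`PreservesKappa`), `f : K →* G` injective with range `ker κ`.  Then

* `restrictSystem`             : `ρ` is a coset system from `K` to `K`;
* `restrict_transfer_res`      : its transfer commutes with the restriction along `f`;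
* `restrict_transfer_conj`     : its transfer commutes with the conjugation by the elements of `G`
                                 (diamond operators);
* `transferAlong_restrict`     : its transfer commutes with the transfer (corestriction) along `f`.

Also `twistSystem`: the left twist `i ↦ ι (w i) * ρ i` of a coset system has the same transfer.
-/
import Mathlib
import Fermat.Agent.S41.Spec.HK
import Fermat.Agent.S41.H761.CosetSystem2
import Fermat.Agent.S41.H761.HKTransfer

set_option autoImplicit false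

namespace Fermat.Agent.S59.MFree.H587

open Fermat.Agent.S41.H761 Fermat.Agent.S41.Spec

/-! ## Twists -/

section Twist

variable {𝒢 Γ Γ' : Type*} [Group 𝒢] [Group Γ] [Group Γ'] {I : Type*}
variable {ι : Γ →* 𝒢} {ι' : Γ' →* 𝒢} {ρ : I → 𝒢}

/-- Left twist of a coset system by elements of `Γ`. -/
theorem twistSystem (h : IsCosetSystem ι ι' ρ) (w : I → Γ) :
    IsCosetSystem ι ι' (fun i => ι (w i) * ρ i) where
  inj := h.inj
  exists_mul := by
    intro i g'
    refine ⟨h.act i g', w i * h.coc i g' * (w (h.act i g'))⁻¹, ?_⟩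
    rw [mul_assoc, h.spec i g']
    simp only [map_mul, map_inv, mul_assoc, inv_mul_cancel_left]
  eq_of_mul := by
    intro i j g e
    apply h.eq_of_mul i j ((w i)⁻¹ * g * w j)
    have e2 : ι ((w i)⁻¹ * g * w j) * ρ j = (ι (w i))⁻¹ * (ι g * (ι (w j) * ρ j)) := by
      simp only [map_mul, map_inv, mul_assoc]
    rw [e2, ← e, inv_mul_cancel_left]

theorem twistSystem_spec (h : IsCosetSystem ι ι' ρ) (w : I → Γ) (i : I) (g' : Γ') :
    ι (w i) * ρ i * ι' g' =
      ι (w i * h.coc i g' * (w (h.act i g'))⁻¹) * (ι (w (h.act i g')) * ρ (h.act i g')) := by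
  rw [mul_assoc, h.spec i g']
  simp only [map_mul, map_inv, mul_assoc, inv_mul_cancel_left]

theorem twistSystem_act (h : IsCosetSystem ι ι' ρ) (w : I → Γ) (i : I) (g' : Γ') :
    (twistSystem h w).act i g' = h.act i g' :=
  (twistSystem h w).act_eq (twistSystem_spec h w i g')

theorem twistSystem_coc (h : IsCosetSystem ι ι' ρ) (w : I → Γ) (i : I) (g' : Γ') :
    (twistSystem h w).coc i g' = w i * h.coc i g' * (w (h.act i g'))⁻¹ :=
  (twistSystem h w).coc_eq (twistSystem_spec h w i g')

/-- A twist does not change the transfer. -/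
theorem twistSystem_transfer [Fintype I] {A : Type*} [AddCommGroup A]
    (h : IsCosetSystem ι ι' ρ) (w : I → Γ) (φ : Additive Γ →+ A) :
    (twistSystem h w).transfer φ = h.transfer φ := by
  refine AddMonoidHom.ext fun g' => ?_
  obtain ⟨g, rfl⟩ : ∃ g : Γ', Additive.ofMul g = g' := ⟨Additive.toMul g', rfl⟩
  rw [IsCosetSystem.transfer_apply, IsCosetSystem.transfer_apply]
  have e1 : ∀ i : I, φ (Additive.ofMul ((twistSystem h w).coc i g)) =
      φ (Additive.ofMul (w i)) + φ (Additive.ofMul (h.coc i g)) -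
        φ (Additive.ofMul (w (h.act i g))) := by
    intro i
    rw [twistSystem_coc h w, ofMul_mul, ofMul_mul, ofMul_inv, map_add, map_add, map_neg]
    abel
  rw [Finset.sum_congr rfl (fun i _ => e1 i), Finset.sum_sub_distrib, Finset.sum_add_distrib]
  have hperm : ∑ i, φ (Additive.ofMul (w (h.act i g))) = ∑ i, φ (Additive.ofMul (w i)) :=
    Equiv.sum_comp (h.actEquiv g) (fun i => φ (Additive.ofMul (w i)))
  rw [hperm]
  abel

end Twist

/-! ## Systems preserving a character -/

section Kappa

variable {𝒢 G K D : Type*} [Group 𝒢] [Group G] [Group K] [Group D] {I : Type*}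
variable {ι : G →* 𝒢} {ρ : I → 𝒢}

/-- The cocycle of the coset system preserves `κ`. -/
def PreservesKappa (h : IsCosetSystem ι ι ρ) (κ : G →* D) : Prop :=
  ∀ (i : I) (g : G), κ (h.coc i g) = κ g

variable (h : IsCosetSystem ι ι ρ) {κ : G →* D} (hκ : PreservesKappa h κ)
variable (f : K →* G) (hf : Function.Injective f) (hr : ∀ g : G, g ∈ f.range ↔ κ g = 1)

include hκ hf hr in
/-- A coset system preserving `κ` restricts to `ker κ`. -/
theorem restrictSystem : IsCosetSystem (ι.comp f) (ι.comp f) ρ where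
  inj := h.inj.comp hf
  exists_mul := by
    intro i k
    have h1 : h.coc i (f k) ∈ f.range := (hr _).2 (by rw [hκ, (hr _).1 ⟨k, rfl⟩])
    obtain ⟨k', hk'⟩ := h1
    refine ⟨h.act i (f k), k', ?_⟩
    rw [MonoidHom.comp_apply, MonoidHom.comp_apply, hk']
    exact h.spec i (f k)
  eq_of_mul := fun i j k e => h.eq_of_mul i j (f k) e

theorem restrictSystem_act (i : I) (k : K) :
    (restrictSystem h hκ f hf hr).act i k = h.act i (f k) := by
  have e : ρ i * ι (f k) = ι (f ((restrictSystem h hκ f hf hr).coc i k)) *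
      ρ ((restrictSystem h hκ f hf hr).act i k) := (restrictSystem h hκ f hf hr).spec i k
  exact (h.act_eq e).symm

theorem restrictSystem_coc (i : I) (k : K) :
    f ((restrictSystem h hκ f hf hr).coc i k) = h.coc i (f k) := by
  have e : ρ i * ι (f k) = ι (f ((restrictSystem h hκ f hf hr).coc i k)) *
      ρ ((restrictSystem h hκ f hf hr).act i k) := (restrictSystem h hκ f hf hr).spec i k
  exact (h.coc_eq e).symm

variable {A : Type*} [AddCommGroup A]

/-- The restricted system commutes with the restriction along `f`. -/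
theorem restrict_transfer_res [Fintype I] (φ : Additive G →+ A) :
    (restrictSystem h hκ f hf hr).transfer (φ.comp (MonoidHom.toAdditive f)) =
      (h.transfer φ).comp (MonoidHom.toAdditive f) := by
  refine AddMonoidHom.ext fun k' => ?_
  obtain ⟨k, rfl⟩ : ∃ k : K, Additive.ofMul k = k' := ⟨Additive.toMul k', rfl⟩
  rw [IsCosetSystem.transfer_apply]
  show _ = h.transfer φ (Additive.ofMul (f k))
  rw [IsCosetSystem.transfer_apply]
  refine Finset.sum_congr rfl fun i _ => ?_
  show φ (Additive.ofMul (f ((restrictSystem h hκ f hf hr).coc i k))) = _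
  rw [restrictSystem_coc h hκ f hf hr]

/-- The restricted system commutes with the conjugation by the elements of `G`. -/
theorem restrict_transfer_conj [Fintype I] (g : G) (c : K →* K)
    (hc : ∀ k, f (c k) = g⁻¹ * f k * g) (φ : Additive K →+ A) :
    (restrictSystem h hκ f hf hr).transfer (φ.comp (MonoidHom.toAdditive c)) =
      ((restrictSystem h hκ f hf hr).transfer φ).comp (MonoidHom.toAdditive c) := by
  classical
  set h' := restrictSystem h hκ f hf hr with hh'
  -- the correction terms
  have hα : ∀ j : I, ∃ a : K, f a = h.coc j g * g⁻¹ := by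
    intro j
    have h1 : h.coc j g * g⁻¹ ∈ f.range := (hr _).2 (by rw [map_mul, hκ, map_inv, mul_inv_cancel])
    exact h1
  choose α hα using hα
  have hinv : ∀ i : I, h.coc i g⁻¹ = (h.coc (h.act i g⁻¹) g)⁻¹ := by
    intro i
    have h1 := h.coc_mul i g⁻¹ g
    rw [inv_mul_cancel, h.coc_one] at h1
    exact eq_inv_of_mul_eq_one_left h1.symm
  have key : ∀ (i : I) (k : K), h'.coc i (c k) =
      c ((α (h.act i g⁻¹))⁻¹ * h'.coc (h.act i g⁻¹) k * α (h.act (h.act i g⁻¹) (f k))) := by
    intro i k
    apply hf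
    rw [restrictSystem_coc h hκ f hf hr, hc, hc, h.coc_mul, h.coc_mul, h.act_mul, hinv i,
      map_mul, map_mul, map_inv, hα, hα, restrictSystem_coc h hκ f hf hr]
    group
  refine AddMonoidHom.ext fun k' => ?_
  obtain ⟨k, rfl⟩ : ∃ k : K, Additive.ofMul k = k' := ⟨Additive.toMul k', rfl⟩
  rw [IsCosetSystem.transfer_apply]
  show _ = h'.transfer φ (Additive.ofMul (c k))
  rw [IsCosetSystem.transfer_apply]
  simp only [key]
  let ψ : Additive K →+ A := φ.comp (MonoidHom.toAdditive c)
  let F : I → A := fun j => - ψ (Additive.ofMul (α j)) + ψ (Additive.ofMul (h'.coc j k)) +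
    ψ (Additive.ofMul (α (h.act j (f k))))
  have e1 : ∀ i : I, φ (Additive.ofMul (c ((α (h.act i g⁻¹))⁻¹ * h'.coc (h.act i g⁻¹) k *
      α (h.act (h.act i g⁻¹) (f k))))) = F (h.actEquiv g⁻¹ i) := by
    intro i
    show ψ (Additive.ofMul ((α (h.act i g⁻¹))⁻¹ * h'.coc (h.act i g⁻¹) k *
      α (h.act (h.act i g⁻¹) (f k)))) = _
    simp only [F, ofMul_mul, ofMul_inv, map_add, map_neg, IsCosetSystem.actEquiv_apply]
  have e3 : ∑ i, φ (Additive.ofMul (c ((α (h.act i g⁻¹))⁻¹ * h'.coc (h.act i g⁻¹) k *
      α (h.act (h.act i g⁻¹) (f k))))) = ∑ j, F j := by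
    rw [Finset.sum_congr rfl (fun i _ => e1 i)]
    exact Equiv.sum_comp (h.actEquiv g⁻¹) F
  rw [e3]
  simp only [F, Finset.sum_add_distrib, Finset.sum_neg_distrib]
  have hperm : ∑ j, ψ (Additive.ofMul (α (h.act j (f k)))) = ∑ j, ψ (Additive.ofMul (α j)) :=
    Equiv.sum_comp (h.actEquiv (f k)) (fun j => ψ (Additive.ofMul (α j)))
  rw [hperm]
  have e2 : ∀ j : I, (φ.comp (MonoidHom.toAdditive c)) (Additive.ofMul (h'.coc j k)) =
      ψ (Additive.ofMul (h'.coc j k)) := fun _ => rfl
  simp only [e2]
  abel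

/-- The restricted system commutes with the transfer along `f`. -/
theorem transferAlong_restrict [Fintype I] [hfin : f.range.FiniteIndex]
    (φ : Additive K →+ A) :
    transferAlong f ((restrictSystem h hκ f hf hr).transfer φ) =
      h.transfer (transferAlong f φ) := by
  classical
  let _ : Fintype (G ⧸ f.range) := f.range.fintypeQuotientOfFiniteIndex
  have hι : Function.Injective ι := h.inj
  set h' := restrictSystem h hκ f hf hr with hh'
  have hC := IsCosetSystem.ofTransfer f hf ι hι
  -- the two product systems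
  have hP1 : IsCosetSystem (ι.comp f) ι
      (fun x : I × (G ⧸ f.range) => ρ x.1 * ι (x.2.out)⁻¹) := by
    refine IsCosetSystem.prod h' hC ?_
    intro i i' q q' k e
    -- `ρ i * ι (q.out⁻¹ * q'.out) = ι (f k) * ρ i'`
    have e1 : ρ i * ι ((q.out)⁻¹ * q'.out) = ι (f k) * ρ i' := by
      rw [map_mul, ← mul_assoc, e, MonoidHom.comp_apply]
      simp only [mul_assoc, ← map_mul, inv_mul_cancel, map_one, mul_one]
    obtain ⟨ha, hc⟩ := h.unique e1
    have hw : κ ((q.out)⁻¹ * q'.out) = 1 := by
      rw [← hκ i, hc]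
      exact (hr _).1 ⟨k, rfl⟩
    have hq : q = q' := by
      have h2 : ((q.out : G) : G ⧸ f.range) = ((q'.out : G) : G ⧸ f.range) :=
        QuotientGroup.eq.mpr ((hr _).2 hw)
      rwa [QuotientGroup.out_eq', QuotientGroup.out_eq'] at h2
    subst hq
    rw [inv_mul_cancel, h.act_one] at ha
    exact ⟨ha, rfl⟩
  have hP2 : IsCosetSystem (ι.comp f) ι
      (fun x : (G ⧸ f.range) × I => ι (x.1.out)⁻¹ * ρ x.2) := by
    refine IsCosetSystem.prod hC h ?_
    intro q q' i i' k e
    have e1 : ρ i = ι (q.out * f k * (q'.out)⁻¹) * ρ i' := by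
      have e2 : ι (q.out * f k * (q'.out)⁻¹) * ρ i' =
          ι q.out * ((ι.comp f) k * (ι (q'.out)⁻¹ * ρ i')) := by
        simp only [map_mul, MonoidHom.comp_apply, mul_assoc]
      rw [e2, ← e, ← mul_assoc, ← map_mul, mul_inv_cancel, map_one, one_mul]
    have hi : i = i' := h.eq_of_mul i i' _ e1
    subst hi
    have e3 : ι (q.out * f k * (q'.out)⁻¹) = 1 := by
      have := e1
      nth_rewrite 1 [← one_mul (ρ i)] at this
      exact (mul_right_cancel this).symm
    have e4 : q.out * f k * (q'.out)⁻¹ = 1 := hι (by rw [e3, map_one])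
    have e5 : (q.out)⁻¹ * q'.out = f k := by
      have : q.out * f k = q'.out := mul_inv_eq_one.mp e4
      rw [← this, inv_mul_cancel_left]
    have h2 : ((q.out : G) : G ⧸ f.range) = ((q'.out : G) : G ⧸ f.range) :=
      QuotientGroup.eq.mpr (e5 ▸ ⟨k, rfl⟩)
    rw [QuotientGroup.out_eq', QuotientGroup.out_eq'] at h2
    exact ⟨h2, rfl⟩
  rw [transferAlong_eq f hf ι hι, transferAlong_eq f hf ι hι,
    IsCosetSystem.transfer_comp h' (IsCosetSystem.ofTransfer f hf ι hι) hP1,
    IsCosetSystem.transfer_comp (IsCosetSystem.ofTransfer f hf ι hι) h hP2]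
  refine IsCosetSystem.transfer_eq_of_le_of_card hP1 hP2 ?_ ?_ φ
  · rw [Fintype.card_prod, Fintype.card_prod, mul_comm]
  · rintro ⟨i, q⟩
    -- `ρ i * ι q.out⁻¹ = ι γ * ρ i'`
    set γ := h.coc i (q.out)⁻¹ with hγ
    set i' := h.act i (q.out)⁻¹ with hi'
    have hmem : γ * ((γ⁻¹ : G) : G ⧸ f.range).out ∈ f.range := by
      have h2 : (((γ⁻¹ : G) : G ⧸ f.range).out : G ⧸ f.range) = ((γ⁻¹ : G) : G ⧸ f.range) :=
        QuotientGroup.out_eq' _
      have h3 := QuotientGroup.eq.mp h2.symm
      rwa [inv_inv] at h3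
    obtain ⟨k, hk⟩ := hmem
    refine ⟨(((γ⁻¹ : G) : G ⧸ f.range), i'), k, ?_⟩
    show ρ i * ι (q.out)⁻¹ = (ι.comp f) k * (ι (((γ⁻¹ : G) : G ⧸ f.range).out)⁻¹ * ρ i')
    rw [MonoidHom.comp_apply, hk, ← mul_assoc, ← map_mul, mul_inv_cancel_right, h.spec i (q.out)⁻¹]

end Kappa

end Fermat.Agent.S59.MFree.H587
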