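/-
Row S59, block M-FREE, leaf **ASM2** (helper587, subtask 725):
`freeOfAbs : FreeOfAbsStatement`  (`S59/MFree/Spec.lean`), i.e.
`FreeAbsStatement → EisensteinStatement → FreeStatement`.

Content: the hypothesis "Eisenstein on the defect" of the abstract form follows from
`cor ∘ t = T_l ∘ cor` and `T_l = l + 1` on the classes of `Γ₀(M)` trivial on `Γ₁(M)`:
for a `D`-invariant `x` the class `cor x` is `|D| · x` on `Γ' = ker κ` (`cor_apply_of_ker`),
so `cor x mod |D|` is trivial on `Γ₁(M) ≤ Γ'`; divide by `|D|` in the domain `O`.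
-/
import Fermat.Agent.S59.MFree.Spec
import Fermat.Agent.S41.H863.TransferNatural

set_option autoImplicit false
set_option linter.unusedSectionVars false

namespace Fermat.Agent.S59.MFree.H587

open CongruenceSubgroup Matrix.SpecialLinearGroup
open Fermat.Agent.S41.Spec Fermat.Agent.S29.H642
open scoped MatrixGroups

universe u

section General

variable {Γ : Subgroup SL(2, ℤ)} {D : Type} [Group D]

theorem mem_range_inclusion_iff (κ : Γ →* D) (g : Γ) :
    g ∈ (Subgroup.inclusion (kerSub_le κ)).range ↔ κ g = 1 := by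
  constructor
  · rintro ⟨h, rfl⟩
    obtain ⟨h1, h2⟩ := mem_kerSub.mp h.2
    exact h2
  · intro hg
    exact ⟨⟨(g : SL(2, ℤ)), mem_kerSub.mpr ⟨g.2, hg⟩⟩, rfl⟩

/-- The conjugate `s γ s⁻¹` of an element of `ker κ`, as an element of `Γ' = kerSub κ`. -/
def conjElt (κ : Γ →* D) (s γ : Γ) (hγ : κ γ = 1) : kerSub κ :=
  ⟨(s : SL(2, ℤ)) * γ * (s : SL(2, ℤ))⁻¹, mem_kerSub.mpr
    ⟨Γ.mul_mem (Γ.mul_mem s.2 γ.2) (Γ.inv_mem s.2), by
      have : (⟨(s : SL(2, ℤ)) * γ * (s : SL(2, ℤ))⁻¹,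
          Γ.mul_mem (Γ.mul_mem s.2 γ.2) (Γ.inv_mem s.2)⟩ : Γ) = s * γ * s⁻¹ := rfl
      rw [this, map_mul, map_mul, hγ, mul_one, map_inv, mul_inv_cancel]⟩⟩

variable [Fintype D] {A : Type*} [AddCommGroup A]

/-- The transfer of `x`, evaluated on `γ ∈ ker κ`, is the sum of the values of `x` on the
conjugates of `γ` by a system of representatives. -/
theorem cor_apply_of_ker (κ : Γ →* D) (s : D → Γ) (hs : ∀ d, κ (s d) = d)
    (x : Additive (kerSub κ) →+ A) (γ : Γ) (hγ : κ γ = 1) :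
    cor κ x (Additive.ofMul γ) = ∑ d : D, x (Additive.ofMul (conjElt κ (s d) γ hγ)) := by
  unfold cor
  refine Fermat.Agent.S41.H863.transferAlong_eq_sum_reps (Subgroup.inclusion (kerSub_le κ))
    (Subgroup.inclusion_injective _) s ?_ ?_ x γ id (fun d => conjElt κ (s d) γ hγ) ?_
  · intro a b hab
    have h1 := (mem_range_inclusion_iff κ _).1 hab
    rw [map_mul, map_inv, hs, hs, mul_inv_eq_one] at h1
    exact h1
  · intro g
    refine ⟨κ g, (mem_range_inclusion_iff κ _).2 ?_⟩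
    rw [map_mul, map_inv, hs, mul_inv_cancel]
  · intro d
    apply Subtype.ext
    show ((s d : SL(2, ℤ)) * γ) = ((s d : SL(2, ℤ)) * γ * (s d : SL(2, ℤ))⁻¹) * (s d : SL(2, ℤ))
    group

/-- For a class `x` invariant under the diamond operators, `cor x = |D| · x` on `ker κ`. -/
theorem cor_apply_of_ker_of_invariant (κ : Γ →* D) (hκ : Function.Surjective κ)
    (x : Additive (kerSub κ) →+ A) (hx : ∀ g : Γ, conjAct κ g x = x) (γ : Γ) (hγ : κ γ = 1) :
    cor κ x (Additive.ofMul γ) =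
      Fintype.card D • x (Additive.ofMul ⟨(γ : SL(2, ℤ)), mem_kerSub.mpr ⟨γ.2, hγ⟩⟩) := by
  choose s hs using hκ
  rw [cor_apply_of_ker κ s hs x γ hγ, Finset.sum_congr rfl (g := fun _ =>
    x (Additive.ofMul ⟨(γ : SL(2, ℤ)), mem_kerSub.mpr ⟨γ.2, hγ⟩⟩)), Finset.sum_const,
    Finset.card_univ]
  intro d _
  have h1 := congrArg (fun φ => φ (Additive.ofMul (⟨(γ : SL(2, ℤ)),
    mem_kerSub.mpr ⟨γ.2, hγ⟩⟩ : kerSub κ))) (hx (s d)⁻¹)
  simp only [conjAct_apply] at h1
  rw [← h1]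
  congr 2
  apply Subtype.ext
  show (s d : SL(2, ℤ)) * γ * (s d : SL(2, ℤ))⁻¹ =
    (((s d)⁻¹ : Γ) : SL(2, ℤ))⁻¹ * γ * (((s d)⁻¹ : Γ) : SL(2, ℤ))
  rw [Subgroup.coe_inv, inv_inv]

theorem cor_add (κ : Γ →* D) (x y : Additive (kerSub κ) →+ A) :
    cor κ (x + y) = cor κ x + cor κ y :=
  Fermat.Agent.S41.H581.transferAlong_add _ x y

theorem cor_sub (κ : Γ →* D) (x y : Additive (kerSub κ) →+ A) :
    cor κ (x - y) = cor κ x - cor κ y := by
  rw [eq_sub_iff_add_eq, ← cor_add, sub_add_cancel]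

theorem cor_comp {B : Type*} [AddCommGroup B] (κ : Γ →* D) (π : A →+ B)
    (x : Additive (kerSub κ) →+ A) : cor κ (π.comp x) = π.comp (cor κ x) :=
  Fermat.Agent.S41.H581.transferAlong_comp _ π x

theorem cor_smul {O : Type*} [CommRing O] (κ : Γ →* D) (c : O)
    (x : Additive (kerSub κ) →+ O) : cor κ (c • x) = c • cor κ x := by
  have h1 : c • x = (AddMonoidHom.mulLeft c).comp x := by
    ext h
    rfl
  have h2 : c • cor κ x = (AddMonoidHom.mulLeft c).comp (cor κ x) := by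
    ext h
    rfl
  rw [h1, h2, cor_comp]

end General


/-! ## Division by `|D|` -/

section Div

variable {G : Type*} [Group G] {O : Type*} [CommRing O] [IsDomain O]

/-- An additive class with values in `n O` (`n ≠ 0` in the domain `O`) is `n` times a class. -/
theorem exists_eq_nsmul_of_forall_dvd (n : ℕ) (hn : (n : O) ≠ 0) (w : Additive G →+ O)
    (hw : ∀ g : G, ∃ z : O, w (Additive.ofMul g) = (n : O) * z) :
    ∃ y : Additive G →+ O, w = n • y := by
  choose z hz using hw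
  have hz' : ∀ g : Additive G, w g = (n : O) * z (Additive.toMul g) := fun g => hz _
  refine ⟨{ toFun := fun g => z (Additive.toMul g)
            map_zero' := ?_
            map_add' := ?_ }, ?_⟩
  · apply mul_left_cancel₀ hn
    rw [← hz', map_zero, mul_zero]
  · intro a b
    apply mul_left_cancel₀ hn
    rw [← hz', mul_add, ← hz', ← hz', map_add]
  · refine AddMonoidHom.ext fun g => ?_
    rw [AddMonoidHom.nsmul_apply, nsmul_eq_mul]
    exact hz' g

end Div

/-! ## The leaf -/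

/-- **ASM2.**  `FreeAbsStatement → EisensteinStatement → FreeStatement`. -/
theorem freeOfAbs : FreeOfAbsStatement.{u} := by
  intro hAbs hEis p M l _ _ hl hM D _ _ κ hκ hcard hell hΓ1 O _ _ _ _ hp e t he het hec htc hcor
    hsurj hinj
  have : NeZero M := ⟨hM⟩
  have hneg1 : (-1 : SL(2, ℤ)) ∈ Gamma0 M := by
    rw [Gamma0_mem]
    simp
  have hfin : IsOfFinOrder (⟨-1, hneg1⟩ : Gamma0 M) := by
    refine isOfFinOrder_iff_pow_eq_one.2 ⟨2, by norm_num, ?_⟩
    apply Subtype.ext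
    simp
  have hneg : (-1 : SL(2, ℤ)) ∈ kerSub κ := mem_kerSub.mpr ⟨hneg1, hell _ hfin⟩
  refine hAbs p (Gamma0 M) D κ hκ hcard hneg hell O hp e t ((l : O) + 1) he het hec htc ?_
    hsurj hinj
  intro x hx
  -- `|D| ≠ 0` in `O`
  have hD : ((Fintype.card D : ℕ) : O) ≠ 0 := by
    rw [Nat.cast_ne_zero]
    exact Fintype.card_ne_zero
  -- reduction modulo `|D|`
  let I : Ideal O := Ideal.span {((Fintype.card D : ℕ) : O)}
  let π : O →+ O ⧸ I := (Ideal.Quotient.mk I).toAddMonoidHom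
  have hπ : ∀ a : O, π a = 0 → ∃ z : O, a = ((Fintype.card D : ℕ) : O) * z := by
    intro a ha
    have h1 : a ∈ I := Ideal.Quotient.eq_zero_iff_mem.1 ha
    obtain ⟨z, hz⟩ := Ideal.mem_span_singleton'.1 h1
    exact ⟨z, by rw [← hz, mul_comm]⟩
  -- `cor x mod |D|` is trivial on `Γ₁(M)`
  have hθ : ∀ γ : Gamma0 M, ((((γ : SL(2, ℤ)) 1 1 : ℤ)) : ZMod M) = 1 →
      (π.comp (cor κ x)) (Additive.ofMul γ) = 0 := by
    intro γ hγ
    rw [AddMonoidHom.comp_apply, cor_apply_of_ker_of_invariant κ hκ x hx γ (hΓ1 γ hγ),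
      nsmul_eq_mul]
    exact Ideal.Quotient.eq_zero_iff_mem.2
      (Ideal.mul_mem_right _ _ (Ideal.subset_span rfl))
  have hE := hEis M l hl hM (O ⧸ I) (π.comp (cor κ x)) hθ
  rw [heckeTransfer_comp] at hE
  -- the defect has values in `|D| O`
  have hw : ∀ γ : Gamma0 M, ∃ z : O,
      (cor κ (t x - ((l : O) + 1) • x)) (Additive.ofMul γ) = ((Fintype.card D : ℕ) : O) * z := by
    intro γ
    apply hπ
    rw [cor_sub, cor_smul, hcor, AddMonoidHom.sub_apply, map_sub]
    have h1 := congrArg (fun φ => φ (Additive.ofMul γ)) hE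
    simp only [AddMonoidHom.comp_apply, AddMonoidHom.nsmul_apply] at h1
    rw [h1, sub_eq_zero]
    show (l + 1) • π (cor κ x (Additive.ofMul γ)) =
      π (((l : O) + 1) * cor κ x (Additive.ofMul γ))
    rw [← map_nsmul, nsmul_eq_mul, Nat.cast_add, Nat.cast_one]
  exact exists_eq_nsmul_of_forall_dvd (Fintype.card D) hD _ hw

end Fermat.Agent.S59.MFree.H587
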