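/-
Row S59, block M-FREE, next layer (helper587): the Hecke operators on `H(Γ', A) = Hom(Γ', A)`,
`Γ' = kerSub κ`, `κ : Γ₀(M) →* D` trivial on `{d ≡ 1 mod M}` (so `Γ₁(M) ≤ Γ' ≤ Γ₀(M)`), `l ∤ M` prime.

A family `w x ∈ Γ₀(M)`, `x ∈ ℙ¹(𝔽_l)`, is *normalising* with constant `c` if the lower right entry
of `w x * heckeRep l x` is `c` modulo `M` for every `x` (`IsNormalising`).  Then the representatives
`w x * heckeRep l x` form a coset system from `Γ'` to `Γ'` (`kerSystem`) and its transfer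
`heckeKerOf` satisfies

* `cor_heckeKerOf`     : `cor ∘ t = T_l ∘ cor`;
* `heckeKerOf_res`     : `t ∘ res = res ∘ T_l`;
* `heckeKerOf_conjAct` : `t` commutes with the diamond operators `conjAct κ g`;
* `heckeKerOf_congr`   : `t` only depends on the constant `c`.

`c = l` is the classical `T_l` (`heckeKer`, representatives `[[1,j],[0,l]]`, `σ_l [[l,0],[0,1]]`),
`c = 1` the dual operator `T_l^*` (`heckeKerDual`).  `heckeKerLin`, `heckeKerDualLin`: the `O`-linear
versions; `free_heckeKer`: the theorem `MFree.free` for `t = T_l`.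
-/
import Fermat.Agent.S59.MFree.Main
import Fermat.Agent.S59.MFree.H587.KappaSystem
import Fermat.Agent.S41.H761.HKSystems

set_option autoImplicit false
set_option linter.unusedSectionVars false

namespace Fermat.Agent.S59.MFree.H587

open CongruenceSubgroup Matrix.SpecialLinearGroup
open Fermat.Agent.S41.Spec Fermat.Agent.S29.H642 Fermat.Agent.S41.H761
open Fermat.Agent.S59.MFree.H941
open P2MW.S_ModularForm_heckeT_slash_eq_self_of_mem_Gamma0.ModularForm.HeckeSlashInvariance
open scoped MatrixGroups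

universe u

section Basic

variable {M l : ℕ} [Fact l.Prime] {D : Type} [Group D]

/-- `κ` only depends on the lower right entry modulo `M`. -/
theorem kappa_congr (κ : Gamma0 M →* D)
    (hΓ1 : ∀ γ : Gamma0 M, ((((γ : SL(2, ℤ)) 1 1 : ℤ)) : ZMod M) = 1 → κ γ = 1)
    {γ γ' : Gamma0 M} (h : eisD M γ = eisD M γ') : κ γ = κ γ' := by
  have h1 : eisD M (γ⁻¹ * γ') = 1 := by rw [eisD_mul, ← h, eisD_inv_mul]
  have h2 := hΓ1 (γ⁻¹ * γ') h1
  rw [map_mul, map_inv, inv_mul_eq_one] at h2
  exact h2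

/-- The lower right entries of the Hecke representatives are units modulo `M`. -/
theorem isUnit_eisU (hl : ¬ l ∣ M) (x : OnePoint (ZMod l)) :
    IsUnit ((eisU l x : ℕ) : ZMod M) := by
  induction x using OnePoint.rec with
  | infty =>
    rw [eisU_infty, Nat.cast_one]
    exact isUnit_one
  | coe j =>
    rw [eisU_coe]
    exact (ZMod.isUnit_iff_coprime l M).2
      ((Nat.Prime.coprime_iff_not_dvd Fact.out).mpr hl)

/-- A family `w x ∈ Γ₀(M)` such that the lower right entry of `w x * heckeRep l x` is `c`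
modulo `M`, for every `x`. -/
def IsNormalising (M l : ℕ) (w : OnePoint (ZMod l) → Gamma0 M) (c : ZMod M) : Prop :=
  ∀ x, eisD M (w x) * ((eisU l x : ℕ) : ZMod M) = c

/-- The twist of the Hecke system by a normalising family preserves `κ`. -/
theorem preservesKappa_twist (hl : ¬ l ∣ M) (κ : Gamma0 M →* D)
    (hΓ1 : ∀ γ : Gamma0 M, ((((γ : SL(2, ℤ)) 1 1 : ℤ)) : ZMod M) = 1 → κ γ = 1)
    (w : OnePoint (ZMod l) → Gamma0 M) (c : ZMod M) (hw : IsNormalising M l w c) :
    PreservesKappa (twistSystem (heckeSystem hl) w) κ := by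
  intro x γ
  rw [twistSystem_coc (heckeSystem hl) w, heckeSystem_coc hl, heckeSystem_act hl]
  apply kappa_congr κ hΓ1
  have h1 := eis_entry hl γ x
  have h2 := hw x
  have h3 := hw (hPerm l (γ : SL(2, ℤ)) x)
  have hu := isUnit_eisU (M := M) hl (hPerm l (γ : SL(2, ℤ)) x)
  generalize hPerm l (γ : SL(2, ℤ)) x = y at h1 h3 hu ⊢
  have key : eisD M (w x) * eisD M (hElt hl γ x) = eisD M (w y) * eisD M γ := by
    apply (IsUnit.mul_left_inj hu).1
    calc eisD M (w x) * eisD M (hElt hl γ x) * ((eisU l y : ℕ) : ZMod M)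
        = eisD M (w x) * (((eisU l x : ℕ) : ZMod M) * eisD M γ) := by rw [mul_assoc, ← h1]
      _ = c * eisD M γ := by rw [← mul_assoc, h2]
      _ = eisD M (w y) * eisD M γ * ((eisU l y : ℕ) : ZMod M) := by rw [← h3]; ring
  rw [eisD_mul, eisD_mul, key]
  have h4 := eisD_inv_mul (w y)
  calc eisD M (w y) * eisD M γ * eisD M (w y)⁻¹
      = eisD M (w y)⁻¹ * eisD M (w y) * eisD M γ := by ring
    _ = eisD M γ := by rw [h4, one_mul]

end Basic

section Operator

variable {M l : ℕ} [Fact l.Prime] {D : Type} [Group D]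
variable (hl : ¬ l ∣ M) (κ : Gamma0 M →* D)
variable (hΓ1 : ∀ γ : Gamma0 M, ((((γ : SL(2, ℤ)) 1 1 : ℤ)) : ZMod M) = 1 → κ γ = 1)
variable (w : OnePoint (ZMod l) → Gamma0 M) (c : ZMod M) (hw : IsNormalising M l w c)

/-- The embedding `Γ' = ker κ → GL(2, ℝ)`. -/
noncomputable def ιKer : kerSub κ →* GL (Fin 2) ℝ :=
  (ιN M).comp (Subgroup.inclusion (kerSub_le κ))

include hl hΓ1 hw in
/-- The normalised Hecke representatives form a coset system from `Γ'` to `Γ'`. -/
theorem kerSystem : IsCosetSystem (ιKer κ) (ιKer κ) (fun x => ιN M (w x) * heckeRep l x) :=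
  restrictSystem (twistSystem (heckeSystem hl) w) (preservesKappa_twist hl κ hΓ1 w c hw)
    (Subgroup.inclusion (kerSub_le κ)) (Subgroup.inclusion_injective _)
    (mem_range_inclusion_iff κ)

theorem kerSystem_coc (x : OnePoint (ZMod l)) (k : kerSub κ) :
    Subgroup.inclusion (kerSub_le κ) ((kerSystem hl κ hΓ1 w c hw).coc x k) =
      w x * hElt hl (Subgroup.inclusion (kerSub_le κ) k) x *
        (w (hPerm l (k : SL(2, ℤ)) x))⁻¹ := by
  have h1 := restrictSystem_coc (twistSystem (heckeSystem hl) w)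
    (preservesKappa_twist hl κ hΓ1 w c hw) (Subgroup.inclusion (kerSub_le κ))
    (Subgroup.inclusion_injective _) (mem_range_inclusion_iff κ) x k
  rw [twistSystem_coc (heckeSystem hl) w, heckeSystem_coc hl, heckeSystem_act hl] at h1
  exact h1

variable {A : Type*} [AddCommGroup A]

/-- The Hecke operator on `H(Γ', A)` attached to a normalising family. -/
noncomputable def heckeKerOf :
    (Additive (kerSub κ) →+ A) →+ (Additive (kerSub κ) →+ A) where
  toFun φ := (kerSystem hl κ hΓ1 w c hw).transfer φ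
  map_zero' := by
    have h := IsCosetSystem.transfer_add (kerSystem hl κ hΓ1 w c hw)
      (0 : Additive (kerSub κ) →+ A) 0
    rw [add_zero] at h
    exact left_eq_add.mp h
  map_add' := IsCosetSystem.transfer_add (kerSystem hl κ hΓ1 w c hw)

theorem heckeKerOf_eq (φ : Additive (kerSub κ) →+ A) :
    heckeKerOf hl κ hΓ1 w c hw φ = (kerSystem hl κ hΓ1 w c hw).transfer φ := rfl

theorem heckeKerOf_apply (φ : Additive (kerSub κ) →+ A) (k : kerSub κ) :
    heckeKerOf hl κ hΓ1 w c hw φ (Additive.ofMul k) =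
      ∑ x : OnePoint (ZMod l), φ (Additive.ofMul ((kerSystem hl κ hΓ1 w c hw).coc x k)) := rfl

/-- `t ∘ res = res ∘ T_l`. -/
theorem heckeKerOf_res (y : Additive (Gamma0 M) →+ A) :
    heckeKerOf hl κ hΓ1 w c hw (res κ y) = res κ (heckeTransfer hl y) := by
  rw [heckeKerOf_eq, heckeTransfer_eq_transfer, ← twistSystem_transfer (heckeSystem hl) w y]
  exact restrict_transfer_res (twistSystem (heckeSystem hl) w)
    (preservesKappa_twist hl κ hΓ1 w c hw) (Subgroup.inclusion (kerSub_le κ))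
    (Subgroup.inclusion_injective _) (mem_range_inclusion_iff κ) y

/-- `t` commutes with the diamond operators. -/
theorem heckeKerOf_conjAct (g : Gamma0 M) (φ : Additive (kerSub κ) →+ A) :
    heckeKerOf hl κ hΓ1 w c hw (conjAct κ g φ) = conjAct κ g (heckeKerOf hl κ hΓ1 w c hw φ) := by
  rw [heckeKerOf_eq, heckeKerOf_eq]
  exact restrict_transfer_conj (twistSystem (heckeSystem hl) w)
    (preservesKappa_twist hl κ hΓ1 w c hw) (Subgroup.inclusion (kerSub_le κ))
    (Subgroup.inclusion_injective _) (mem_range_inclusion_iff κ) g (conjKer κ g)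
    (fun k => rfl) φ

/-- The range of the inclusion `Γ' → Γ₀(M)` has finite index (`D` finite). -/
theorem finiteIndex_range_inclusion [Finite D] :
    (Subgroup.inclusion (kerSub_le κ)).range.FiniteIndex := by
  have h1 : (Subgroup.inclusion (kerSub_le κ)).range = κ.ker := by
    ext g
    rw [mem_range_inclusion_iff, MonoidHom.mem_ker]
  rw [h1]
  infer_instance

/-- `cor ∘ t = T_l ∘ cor`. -/
theorem cor_heckeKerOf [Finite D] (φ : Additive (kerSub κ) →+ A) :
    cor κ (heckeKerOf hl κ hΓ1 w c hw φ) = heckeTransfer hl (cor κ φ) := by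
  have := finiteIndex_range_inclusion κ
  rw [heckeKerOf_eq, heckeTransfer_eq_transfer,
    ← twistSystem_transfer (heckeSystem hl) w (cor κ φ)]
  exact transferAlong_restrict (twistSystem (heckeSystem hl) w)
    (preservesKappa_twist hl κ hΓ1 w c hw) (Subgroup.inclusion (kerSub_le κ))
    (Subgroup.inclusion_injective _) (mem_range_inclusion_iff κ) φ

/-- The operator only depends on the constant `c`. -/
theorem heckeKerOf_congr (w' : OnePoint (ZMod l) → Gamma0 M) (hw' : IsNormalising M l w' c)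
    (φ : Additive (kerSub κ) →+ A) :
    heckeKerOf hl κ hΓ1 w c hw φ = heckeKerOf hl κ hΓ1 w' c hw' φ := by
  rw [heckeKerOf_eq, heckeKerOf_eq]
  refine IsCosetSystem.transfer_eq_of_le_of_card _ _ rfl ?_ φ
  intro x
  have h1 : eisD M (w x) = eisD M (w' x) := by
    apply (IsUnit.mul_left_inj (isUnit_eisU (M := M) hl x)).1
    rw [hw x, hw' x]
  have h2 : κ (w x * (w' x)⁻¹) = 1 := by
    rw [map_mul, map_inv, kappa_congr κ hΓ1 h1, mul_inv_cancel]
  refine ⟨x, ⟨((w x * (w' x)⁻¹ : Gamma0 M) : SL(2, ℤ)), mem_kerSub.mpr ⟨(w x * (w' x)⁻¹).2, h2⟩⟩,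
    ?_⟩
  show ιN M (w x) * heckeRep l x = ιN M (w x * (w' x)⁻¹) * (ιN M (w' x) * heckeRep l x)
  rw [← mul_assoc, ← map_mul, inv_mul_cancel_right]

end Operator

/-! ## Linear versions -/

section Linear

variable {M l : ℕ} [Fact l.Prime] {D : Type} [Group D]
variable (hl : ¬ l ∣ M) (κ : Gamma0 M →* D)
variable (hΓ1 : ∀ γ : Gamma0 M, ((((γ : SL(2, ℤ)) 1 1 : ℤ)) : ZMod M) = 1 → κ γ = 1)
variable (w : OnePoint (ZMod l) → Gamma0 M) (c : ZMod M) (hw : IsNormalising M l w c)
variable (O : Type*) [CommRing O]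

/-- The `O`-linear Hecke operator on `H(Γ', O)` attached to a normalising family. -/
noncomputable def heckeKerOfLin :
    (Additive (kerSub κ) →+ O) →ₗ[O] (Additive (kerSub κ) →+ O) where
  toFun φ := heckeKerOf hl κ hΓ1 w c hw φ
  map_add' := map_add _
  map_smul' a φ := by
    have h1 : a • φ = (AddMonoidHom.mulLeft a).comp φ := by
      ext h
      rfl
    have h2 : a • heckeKerOf hl κ hΓ1 w c hw φ =
        (AddMonoidHom.mulLeft a).comp (heckeKerOf hl κ hΓ1 w c hw φ) := by
      ext h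
      rfl
    rw [RingHom.id_apply, h1, h2, heckeKerOf_eq, heckeKerOf_eq]
    exact IsCosetSystem.transfer_comp_left _ _ _

@[simp] theorem heckeKerOfLin_apply (φ : Additive (kerSub κ) →+ O) :
    heckeKerOfLin hl κ hΓ1 w c hw O φ = heckeKerOf hl κ hΓ1 w c hw φ := rfl

end Linear

/-! ## The classical `T_l` and its dual -/

section Classical

variable {M l : ℕ} [Fact l.Prime] {D : Type} [Group D]

/-- An element of `Γ₀(M)` with lower right entry `l` modulo `M`. -/
noncomputable def lamElt (hl : ¬ l ∣ M) : Gamma0 M := (exists_eisD_eq (M := M) (l := l) hl).choose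

theorem eisD_lamElt (hl : ¬ l ∣ M) : eisD M (lamElt hl) = (l : ZMod M) :=
  (exists_eisD_eq (M := M) (l := l) hl).choose_spec

/-- The normalising family of the classical `T_l`: `w ∞ = σ_l`, `w j = 1`. -/
noncomputable def wStd (hl : ¬ l ∣ M) (x : OnePoint (ZMod l)) : Gamma0 M :=
  x.elim (lamElt hl) (fun _ => 1)

theorem isNormalising_wStd (hl : ¬ l ∣ M) : IsNormalising M l (wStd hl) (l : ZMod M) := by
  intro x
  induction x using OnePoint.rec with
  | infty =>
    show eisD M (lamElt hl) * ((eisU l OnePoint.infty : ℕ) : ZMod M) = _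
    rw [eisD_lamElt, eisU_infty, Nat.cast_one, mul_one]
  | coe j =>
    show eisD M (1 : Gamma0 M) * ((eisU l (j : OnePoint (ZMod l)) : ℕ) : ZMod M) = _
    rw [eisD_one, eisU_coe, one_mul]

/-- The normalising family of the dual operator `T_l^*`: `w ∞ = 1`, `w j = σ_l⁻¹`. -/
noncomputable def wDual (hl : ¬ l ∣ M) (x : OnePoint (ZMod l)) : Gamma0 M :=
  x.elim 1 (fun _ => (lamElt hl)⁻¹)

theorem isNormalising_wDual (hl : ¬ l ∣ M) : IsNormalising M l (wDual hl) 1 := by
  intro x
  induction x using OnePoint.rec with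
  | infty =>
    show eisD M (1 : Gamma0 M) * ((eisU l OnePoint.infty : ℕ) : ZMod M) = _
    rw [eisD_one, eisU_infty, Nat.cast_one, mul_one]
  | coe j =>
    show eisD M (lamElt hl)⁻¹ * ((eisU l (j : OnePoint (ZMod l)) : ℕ) : ZMod M) = _
    rw [eisU_coe, ← eisD_lamElt hl, eisD_inv_mul]

variable (hl : ¬ l ∣ M) (κ : Gamma0 M →* D)
variable (hΓ1 : ∀ γ : Gamma0 M, ((((γ : SL(2, ℤ)) 1 1 : ℤ)) : ZMod M) = 1 → κ γ = 1)

/-- **The Hecke operator `T_l`** on `H(Γ', A)` (representatives `≡ [[1, *], [0, l]] mod M`). -/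
noncomputable def heckeKer {A : Type*} [AddCommGroup A] :
    (Additive (kerSub κ) →+ A) →+ (Additive (kerSub κ) →+ A) :=
  heckeKerOf hl κ hΓ1 (wStd hl) (l : ZMod M) (isNormalising_wStd hl)

/-- **The dual Hecke operator `T_l^*`** on `H(Γ', A)` (representatives
`≡ [[l, *], [0, 1]] mod M`). -/
noncomputable def heckeKerDual {A : Type*} [AddCommGroup A] :
    (Additive (kerSub κ) →+ A) →+ (Additive (kerSub κ) →+ A) :=
  heckeKerOf hl κ hΓ1 (wDual hl) 1 (isNormalising_wDual hl)

/-- `T_l`, `O`-linear. -/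
noncomputable def heckeKerLin (O : Type*) [CommRing O] :
    (Additive (kerSub κ) →+ O) →ₗ[O] (Additive (kerSub κ) →+ O) :=
  heckeKerOfLin hl κ hΓ1 (wStd hl) (l : ZMod M) (isNormalising_wStd hl) O

/-- `T_l^*`, `O`-linear. -/
noncomputable def heckeKerDualLin (O : Type*) [CommRing O] :
    (Additive (kerSub κ) →+ O) →ₗ[O] (Additive (kerSub κ) →+ O) :=
  heckeKerOfLin hl κ hΓ1 (wDual hl) 1 (isNormalising_wDual hl) O

/-- `T_l = T_l^* ∘ ⟨σ_l⟩` where `⟨σ_l⟩ = conjAct κ σ_l⁻¹`. -/
theorem heckeKer_eq_dual {A : Type*} [AddCommGroup A] (φ : Additive (kerSub κ) →+ A) :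
    heckeKer hl κ hΓ1 φ = heckeKerDual hl κ hΓ1 (conjAct κ (lamElt hl)⁻¹ φ) := by
  refine AddMonoidHom.ext fun k' => ?_
  obtain ⟨k, rfl⟩ : ∃ k : kerSub κ, Additive.ofMul k = k' := ⟨Additive.toMul k', rfl⟩
  unfold heckeKer heckeKerDual
  rw [heckeKerOf_apply, heckeKerOf_apply]
  refine Finset.sum_congr rfl fun x _ => ?_
  rw [conjAct_apply]
  congr 2
  apply Subtype.ext
  rw [conjKer_coe]
  have h1 := congrArg (fun g : Gamma0 M => (g : SL(2, ℤ)))
    (kerSystem_coc hl κ hΓ1 (wStd hl) (l : ZMod M) (isNormalising_wStd hl) x k)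
  have h2 := congrArg (fun g : Gamma0 M => (g : SL(2, ℤ)))
    (kerSystem_coc hl κ hΓ1 (wDual hl) 1 (isNormalising_wDual hl) x k)
  simp only [Subgroup.coe_inclusion] at h1 h2
  rw [h1, h2]
  have hw : ∀ y : OnePoint (ZMod l), wStd hl y = lamElt hl * wDual hl y := by
    intro y
    induction y using OnePoint.rec with
    | infty => show lamElt hl = lamElt hl * 1; rw [mul_one]
    | coe j => show (1 : Gamma0 M) = lamElt hl * (lamElt hl)⁻¹; rw [mul_inv_cancel]
  rw [hw x, hw (hPerm l (k : SL(2, ℤ)) x)]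
  simp only [Subgroup.coe_mul, Subgroup.coe_inv, mul_inv_rev, inv_inv, mul_assoc]

end Classical

/-! ## `MFree.free` for `t = T_l` -/

/-- **M-FREE for the Hecke operator `T_l` on `H(Γ', O)`**: for a projector `e` commuting with
`T_l` and the diamond operators such that `T_l - (l + 1)` is bijective on `e H`, the module
`e H` is free over `O[D]` and `cor` induces `(e H)_D ≅ cor (e H)`. -/
theorem free_heckeKer (p M l : ℕ) [Fact p.Prime] [Fact l.Prime] (hl : ¬ l ∣ M) (hM : M ≠ 0)
    (D : Type) [Group D] [Fintype D] (κ : Gamma0 M →* D)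
    (hκ : Function.Surjective κ) (hcard : ∃ a : ℕ, Fintype.card D = p ^ a)
    (hell : ∀ g : Gamma0 M, IsOfFinOrder g → κ g = 1)
    (hΓ1 : ∀ γ : Gamma0 M, ((((γ : SL(2, ℤ)) 1 1 : ℤ)) : ZMod M) = 1 → κ γ = 1)
    (O : Type u) [CommRing O] [IsDomain O] [IsDiscreteValuationRing O] [CharZero O]
    (hp : ¬ IsUnit (p : O))
    (e : (Additive (kerSub κ) →+ O) →ₗ[O] (Additive (kerSub κ) →+ O))
    (he : ∀ x, e (e x) = e x)
    (het : ∀ x, e (heckeKerLin hl κ hΓ1 O x) = heckeKerLin hl κ hΓ1 O (e x))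
    (hec : ∀ (g : Gamma0 M) x, e (conjAct κ g x) = conjAct κ g (e x))
    (hsurj : ∀ y, e y = y → ∃ x, e x = x ∧ heckeKerLin hl κ hΓ1 O x - ((l : O) + 1) • x = y)
    (hinj : ∀ x, e x = x → heckeKerLin hl κ hΓ1 O x - ((l : O) + 1) • x = 0 → x = 0) :
    FreeConclusion κ O e :=
  free.{u} p M l hl hM D κ hκ hcard hell hΓ1 O hp e (heckeKerLin hl κ hΓ1 O) he het hec
    (fun g x => heckeKerOf_conjAct hl κ hΓ1 (wStd hl) (l : ZMod M) (isNormalising_wStd hl) g x)
    (fun x => cor_heckeKerOf hl κ hΓ1 (wStd hl) (l : ZMod M) (isNormalising_wStd hl) x)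
    hsurj hinj

end Fermat.Agent.S59.MFree.H587
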